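/-
Team KUMMER, design B (owner: helper98).
Basic facts used by the level certificates: powers of `λ = ζ - 1` dividing `p`, and the
cyclotomic units `ε_i = 1 + ζ + ⋯ + ζ^(i-1)` as units of `𝓞 K`.
-/
import Mathlib

set_option autoImplicit false

namespace Fermat.Agent.Kummer.KLBBasic

open NumberField

variable {p : ℕ} [hp : Fact p.Prime] {K : Type*} [Field K] [NumberField K]
  [IsCyclotomicExtension {p} ℚ K] {ζ : K} (hζ : IsPrimitiveRoot ζ p)

include hζ in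
/-- `λ ^ m ∣ p` for `m ≤ p - 1`, where `λ = ζ - 1`. -/
theorem lam_pow_dvd_p {m : ℕ} (hm : m ≤ p - 1) :
    (hζ.toInteger - 1) ^ m ∣ (p : 𝓞 K) :=
  (pow_dvd_pow _ hm).trans
    (IsCyclotomicExtension.Rat.associated_zeta_sub_one_pow_prime p hζ).dvd

/-- `ζ` as a unit of `𝓞 K`. -/
noncomputable def zetaUnit : (𝓞 K)ˣ :=
  (hζ.toInteger_isPrimitiveRoot.isUnit (NeZero.ne p)).unit

@[simp] theorem coe_zetaUnit : ((zetaUnit hζ : (𝓞 K)ˣ) : 𝓞 K) = hζ.toInteger := rfl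

/-- The cyclotomic unit `ε_i = 1 + ζ + ⋯ + ζ^(i-1)` (for `i` prime to `p`) as a unit of `𝓞 K`. -/
noncomputable def epsUnit (i : ℕ) (hi : i.Coprime p) : (𝓞 K)ˣ :=
  (hζ.toInteger_isPrimitiveRoot.geom_sum_isUnit hp.out.two_le hi).unit

@[simp] theorem coe_epsUnit (i : ℕ) (hi : i.Coprime p) :
    ((epsUnit hζ i hi : (𝓞 K)ˣ) : 𝓞 K) = ∑ t ∈ Finset.range i, hζ.toInteger ^ t := rfl

end Fermat.Agent.Kummer.KLBBasic
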