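/-
Team KUMMER, design B (owner: helper13).
Triangular criterion: units whose leading terms sit at pairwise distinct `λ`-adic levels
(`λ = ζ - 1`) are independent modulo units congruent to a rational integer modulo `p`.
-/
import Mathlib
import Fermat.Agent.Kummer.UnitsModPow

set_option autoImplicit false

namespace Fermat.Agent.Kummer.KLBTriangular

open NumberField

/-- In a commutative ring where the prime `p` vanishes, integer casts satisfy `n ^ p = n`. -/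
theorem intCast_pow_prime {Q : Type*} [CommRing Q] {p : ℕ} (hp : p.Prime) (hpQ : (p : Q) = 0)
    (n : ℤ) : (n : Q) ^ p = (n : Q) := by
  have : Fact p.Prime := ⟨hp⟩
  have h1 : ((n ^ p : ℤ) : ZMod p) = ((n : ℤ) : ZMod p) := by
    push_cast
    exact ZMod.pow_card _
  obtain ⟨k, hk⟩ := (ZMod.intCast_eq_intCast_iff_dvd_sub _ _ _).mp h1
  have h2 : (n : Q) - (n : Q) ^ p = (p : Q) * (k : Q) := by
    have := congrArg (Int.cast : ℤ → Q) hk
    push_cast at this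
    exact this
  rw [hpQ, zero_mul, sub_eq_zero] at h2
  exact h2.symm

/-- The subgroup of units of `Q` (a commutative ring in which the prime `p` vanishes) whose
value is the cast of a rational integer. -/
def intUnits (Q : Type*) [CommRing Q] {p : ℕ} (hp : p.Prime) (hpQ : (p : Q) = 0) :
    Subgroup Qˣ where
  carrier := {x | ∃ n : ℤ, (x : Q) = (n : Q)}
  mul_mem' := by
    rintro a b ⟨n, hn⟩ ⟨m, hm⟩
    exact ⟨n * m, by rw [Units.val_mul, hn, hm, Int.cast_mul]⟩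
  one_mem' := ⟨1, by simp⟩
  inv_mem' := by
    rintro x ⟨n, hn⟩
    have hxp : x ^ p = x := by
      apply Units.ext
      rw [Units.val_pow_eq_pow_val, hn]
      exact intCast_pow_prime hp hpQ n
    have h2 : p = (p - 2) + 1 + 1 := by have := hp.two_le; omega
    have h1 : x ^ (p - 2) * x = 1 := by
      have h3 : x ^ (p - 2) * x * x = 1 * x := by
        rw [one_mul, ← pow_succ, ← pow_succ, ← h2]
        exact hxp
      exact mul_right_cancel h3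
    have h4 : x⁻¹ = x ^ (p - 2) := (eq_inv_of_mul_eq_one_left h1).symm
    exact ⟨n ^ (p - 2), by rw [h4, Units.val_pow_eq_pow_val, hn, Int.cast_pow]⟩

theorem mem_intUnits {Q : Type*} [CommRing Q] {p : ℕ} (hp : p.Prime) (hpQ : (p : Q) = 0)
    (x : Qˣ) : x ∈ intUnits Q hp hpQ ↔ ∃ n : ℤ, (x : Q) = (n : Q) := Iff.rfl

theorem one_add_pow_of_mul_self_eq_zero {Q : Type*} [CommRing Q] {x : Q} (hx : x * x = 0)
    (r : ℕ) : (1 + x) ^ r = 1 + r * x := by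
  induction r with
  | zero => simp
  | succ k ih =>
    rw [pow_succ, ih]
    push_cast
    linear_combination (k : Q) * hx

set_option linter.unusedVariables false in
/-- **Triangular criterion.** Units `G j` of `𝓞 K`, `K = ℚ(ζ_p)`, whose leading terms
`G j ≡ c j * (1 + d j * λ ^ lev j)` modulo `λ ^ (lev j + 1)` (`λ = ζ - 1`) sit at pairwise
distinct levels `1 ≤ lev j ≤ p - 2`, with `c j`, `d j` prime to `p`, are independent modulo the
units congruent to a rational integer modulo `p`. -/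
theorem indep_of_levels {p : ℕ} [Fact p.Prime] (hp2 : p ≠ 2) (K : Type*) [Field K]
    [NumberField K] [IsCyclotomicExtension {p} ℚ K] {ζ : K} (hζ : IsPrimitiveRoot ζ p)
    {n : ℕ} (G : Fin n → (𝓞 K)ˣ) (lev : Fin n → ℕ) (c d : Fin n → ℤ)
    (hinj : Function.Injective lev) (h1 : ∀ j, 1 ≤ lev j) (h2 : ∀ j, lev j + 1 ≤ p - 1)
    (hc : ∀ j, ¬ (p : ℤ) ∣ c j) (hd : ∀ j, ¬ (p : ℤ) ∣ d j)
    (hG : ∀ j, (hζ.toInteger - 1) ^ (lev j + 1) ∣
      ((G j : 𝓞 K) - c j * (1 + d j * (hζ.toInteger - 1) ^ (lev j)))) :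
    ∀ e : Fin n → ℤ,
      (∃ m : ℤ, (p : 𝓞 K) ∣ ((∏ i, G i ^ e i : (𝓞 K)ˣ) : 𝓞 K) - m) → ∀ i, (p : ℤ) ∣ e i := by
  classical
  rintro e ⟨m, hm⟩
  by_contra hcon
  rw [not_forall] at hcon
  have hp : p.Prime := Fact.out
  have hpZ : Prime (p : ℤ) := Nat.prime_iff_prime_int.mp hp
  set π : 𝓞 K := hζ.toInteger - 1 with hπ
  have hπprime : Prime π := hζ.zeta_sub_one_prime'
  -- choose an index with `p ∤ e j` of minimal level
  obtain ⟨j₀, hj₀mem, hj₀min⟩ := Finset.exists_min_image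
    (Finset.univ.filter fun j => ¬ (p : ℤ) ∣ e j) lev
    (by obtain ⟨i, hi⟩ := hcon; exact ⟨i, by simp [hi]⟩)
  simp only [Finset.mem_filter, Finset.mem_univ, true_and] at hj₀mem hj₀min
  set ℓ := lev j₀ with hℓ
  have hℓ1 : 1 ≤ ℓ := h1 j₀
  -- the quotient ring
  let J : Ideal (𝓞 K) := Ideal.span {π ^ (ℓ + 1)}
  let φ : 𝓞 K →+* 𝓞 K ⧸ J := Ideal.Quotient.mk J
  have hφ0 : ∀ x : 𝓞 K, π ^ (ℓ + 1) ∣ x → φ x = 0 := fun x hx =>
    Ideal.Quotient.eq_zero_iff_mem.mpr (Ideal.mem_span_singleton.mpr hx)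
  have hφ0' : ∀ x : 𝓞 K, φ x = 0 → π ^ (ℓ + 1) ∣ x := fun x hx =>
    Ideal.mem_span_singleton.mp (Ideal.Quotient.eq_zero_iff_mem.mp hx)
  have hπp : π ^ (ℓ + 1) ∣ (p : 𝓞 K) :=
    (pow_dvd_pow π (h2 j₀)).trans
      (IsCyclotomicExtension.Rat.associated_zeta_sub_one_pow_prime p hζ).dvd
  have hpQ : ((p : ℕ) : 𝓞 K ⧸ J) = 0 := by
    have := hφ0 _ hπp
    simpa using this
  let Φ : (𝓞 K)ˣ →* (𝓞 K ⧸ J)ˣ := Units.map (φ : 𝓞 K →* 𝓞 K ⧸ J)
  have hΦ : ∀ y : (𝓞 K)ˣ, ((Φ y : (𝓞 K ⧸ J)ˣ) : 𝓞 K ⧸ J) = φ (y : 𝓞 K) := fun y => rfl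
  let I : Subgroup (𝓞 K ⧸ J)ˣ := intUnits (𝓞 K ⧸ J) hp hpQ
  -- (a) `p`-th powers of images of units are integers
  have ha : ∀ y : (𝓞 K)ˣ, Φ y ^ p ∈ I := by
    intro y
    obtain ⟨k, z, hz⟩ := UnitsModPow.exists_int_dvd_pow_sub (p := p) K (y : 𝓞 K)
    refine ⟨k, ?_⟩
    rw [Units.val_pow_eq_pow_val, hΦ, ← map_pow]
    have h3 : (y : 𝓞 K) ^ p = (k : 𝓞 K) + (p : 𝓞 K) * z := by rw [← hz]; ring
    rw [h3, map_add, map_mul, map_intCast, map_natCast, hpQ, zero_mul, add_zero]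
  -- (b) the factors other than `j₀` are integers
  have hb : ∀ j, j ≠ j₀ → Φ (G j) ^ e j ∈ I := by
    intro j hj
    by_cases hdiv : (p : ℤ) ∣ e j
    · obtain ⟨g, hg⟩ := hdiv
      have h3 : Φ (G j) ^ e j = Φ (G j ^ g) ^ p := by
        rw [hg, mul_comm, zpow_mul, zpow_natCast, map_zpow]
      rw [h3]
      exact ha _
    · have h3 : ℓ + 1 ≤ lev j := by
        have h4 := hj₀min j hdiv
        have h5 : lev j ≠ lev j₀ := fun h => hj (hinj h)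
        omega
      refine I.zpow_mem ⟨c j, ?_⟩ _
      rw [hΦ]
      have h6 : π ^ (ℓ + 1) ∣ (G j : 𝓞 K) - (c j : 𝓞 K) := by
        have h7 : (G j : 𝓞 K) - (c j : 𝓞 K) =
            ((G j : 𝓞 K) - c j * (1 + d j * π ^ (lev j))) + c j * d j * π ^ (lev j) := by ring
        rw [h7]
        exact dvd_add ((pow_dvd_pow π (by omega)).trans (hG j))
          (Dvd.dvd.mul_left (pow_dvd_pow π h3) _)
      have h8 := hφ0 _ h6
      rw [map_sub, sub_eq_zero, map_intCast] at h8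
      exact h8
  -- (c) split the exponent at `j₀`
  set r : ℕ := (e j₀ % p).toNat with hr
  have hr0 : 0 ≤ e j₀ % p := Int.emod_nonneg _ (by exact_mod_cast hp.ne_zero)
  have hrcast : (r : ℤ) = e j₀ % p := Int.toNat_of_nonneg hr0
  have hrp : ¬ (p : ℤ) ∣ (r : ℤ) := by
    rw [hrcast]
    intro h
    exact hj₀mem ((Int.dvd_iff_emod_eq_zero).mpr
      (by have := (Int.dvd_iff_emod_eq_zero).mp h; rwa [Int.emod_emod] at this))
  have hsplit : Φ (G j₀) ^ e j₀ = Φ (G j₀ ^ (e j₀ / p)) ^ p * Φ (G j₀) ^ r := by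
    have h3 : e j₀ = (e j₀ / p) * p + r := by
      rw [hrcast]; exact (Int.ediv_mul_add_emod _ _).symm
    conv_lhs => rw [h3]
    rw [zpow_add, zpow_mul, zpow_natCast, zpow_natCast, map_zpow]
  have hprod : Φ (∏ i, G i ^ e i) =
      (Φ (G j₀ ^ (e j₀ / p)) ^ p * ∏ j ∈ Finset.univ.erase j₀, Φ (G j) ^ e j) *
        Φ (G j₀) ^ r := by
    rw [map_prod, ← Finset.mul_prod_erase Finset.univ _ (Finset.mem_univ j₀)]
    simp only [map_zpow]
    rw [hsplit]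
    simp only [map_zpow]
    rw [mul_assoc, mul_assoc, mul_comm (Φ (G j₀) ^ r)]
  have hW : (Φ (G j₀ ^ (e j₀ / p)) ^ p * ∏ j ∈ Finset.univ.erase j₀, Φ (G j) ^ e j) ∈ I :=
    I.mul_mem (ha _) (Subgroup.prod_mem _ fun j hj => hb j (Finset.ne_of_mem_erase hj))
  obtain ⟨M, hM⟩ := hW
  set W := Φ (G j₀ ^ (e j₀ / p)) ^ p * ∏ j ∈ Finset.univ.erase j₀, Φ (G j) ^ e j with hWdef
  -- (d) the value of the product in the quotient
  have hval1 : φ ((∏ i, G i ^ e i : (𝓞 K)ˣ) : 𝓞 K) = (m : 𝓞 K ⧸ J) := by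
    obtain ⟨z, hz⟩ := hm
    have h3 : ((∏ i, G i ^ e i : (𝓞 K)ˣ) : 𝓞 K) = (m : 𝓞 K) + (p : 𝓞 K) * z := by
      rw [← hz]; ring
    rw [h3, map_add, map_mul, map_intCast, map_natCast, hpQ, zero_mul, add_zero]
  have hGj₀ : φ (G j₀ : 𝓞 K) = (c j₀ : 𝓞 K ⧸ J) * (1 + (d j₀ : 𝓞 K ⧸ J) * φ π ^ ℓ) := by
    have h3 := hφ0 _ (hG j₀)
    rw [map_sub, sub_eq_zero] at h3
    rw [h3, map_mul, map_add, map_one, map_mul, map_intCast, map_intCast, map_pow]
  have ht : φ π ^ ℓ * φ π ^ ℓ = 0 := by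
    rw [← pow_add, ← map_pow]
    exact hφ0 _ (pow_dvd_pow π (by omega))
  have hsq : ((d j₀ : 𝓞 K ⧸ J) * φ π ^ ℓ) * ((d j₀ : 𝓞 K ⧸ J) * φ π ^ ℓ) = 0 := by
    linear_combination (d j₀ : 𝓞 K ⧸ J) * (d j₀ : 𝓞 K ⧸ J) * ht
  have hval2 : (m : 𝓞 K ⧸ J) = (M : 𝓞 K ⧸ J) * ((c j₀ : 𝓞 K ⧸ J) ^ r *
      (1 + (r : 𝓞 K ⧸ J) * ((d j₀ : 𝓞 K ⧸ J) * φ π ^ ℓ))) := by
    rw [← hval1, ← hΦ, hprod, Units.val_mul, hM, Units.val_pow_eq_pow_val, hΦ, hGj₀, mul_pow,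
      one_add_pow_of_mul_self_eq_zero hsq]
  -- (e) back in `𝓞 K`
  set A : ℤ := m - M * c j₀ ^ r with hA
  set B : ℤ := M * c j₀ ^ r * r * d j₀ with hB
  have hAB : π ^ (ℓ + 1) ∣ (A : 𝓞 K) - (B : 𝓞 K) * π ^ ℓ := by
    apply hφ0'
    rw [hA, hB]
    simp only [map_sub, map_mul, map_intCast, map_pow, Int.cast_sub, Int.cast_mul, Int.cast_pow,
      Int.cast_natCast, map_natCast]
    rw [hval2]
    ring
  have hπA : π ∣ (A : 𝓞 K) := by
    have h3 : (A : 𝓞 K) = ((A : 𝓞 K) - (B : 𝓞 K) * π ^ ℓ) + (B : 𝓞 K) * π ^ ℓ := by ring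
    rw [h3]
    exact dvd_add ((dvd_pow_self π (by omega)).trans hAB)
      (Dvd.dvd.mul_left (dvd_pow_self π (by omega)) _)
  have hpA : (p : ℤ) ∣ A := (IsCyclotomicExtension.Rat.zeta_sub_one_dvd_intCast_iff' p hζ).mp hπA
  have hπA' : π ^ (ℓ + 1) ∣ (A : 𝓞 K) := by
    obtain ⟨k, hk⟩ := hpA
    rw [hk]
    push_cast
    exact Dvd.dvd.mul_right hπp _
  have hπB : π ^ (ℓ + 1) ∣ (B : 𝓞 K) * π ^ ℓ := by
    have h3 : (B : 𝓞 K) * π ^ ℓ = (A : 𝓞 K) - ((A : 𝓞 K) - (B : 𝓞 K) * π ^ ℓ) := by ring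
    rw [h3]
    exact dvd_sub hπA' hAB
  have hπB' : π ∣ (B : 𝓞 K) := by
    rw [pow_succ, mul_comm (B : 𝓞 K)] at hπB
    exact (mul_dvd_mul_iff_left (pow_ne_zero _ hπprime.ne_zero)).mp hπB
  have hpB : (p : ℤ) ∣ B := (IsCyclotomicExtension.Rat.zeta_sub_one_dvd_intCast_iff' p hζ).mp hπB'
  -- conclude
  rw [hB] at hpB
  rcases hpZ.dvd_or_dvd hpB with h3 | h3
  · rcases hpZ.dvd_or_dvd h3 with h4 | h4
    · rcases hpZ.dvd_or_dvd h4 with h5 | h5
      · -- `p ∣ M`: then the unit `W` is zero in the quotient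
        obtain ⟨k, hk⟩ := h5
        have hW0 : (W : 𝓞 K ⧸ J) = 0 := by
          rw [hM, hk]
          push_cast
          rw [hpQ, zero_mul]
        have h10 : (1 : 𝓞 K ⧸ J) = 0 := by
          have := W.mul_inv
          rw [hW0, zero_mul] at this
          exact this.symm
        have h11 : π ^ (ℓ + 1) ∣ (1 : 𝓞 K) := hφ0' 1 (by rw [map_one]; exact h10)
        exact hπprime.not_isUnit (isUnit_of_dvd_one ((dvd_pow_self π (by omega)).trans h11))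
      · exact hc j₀ (hpZ.dvd_of_dvd_pow h5)
    · exact hrp h4
  · exact hd j₀ h3

end Fermat.Agent.Kummer.KLBTriangular
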