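/-
Team KUMMER, design B (file generated by helper98's script gen_cert.py).
Level certificates for p = 11: the units G_j (products of powers of ζ and of the cyclotomic
units ε_i = 1 + ζ + ... + ζ^(i-1)) satisfy G_j ≡ c_j (1 + d_j λ^(lev j)) mod λ^(lev j + 1), λ = ζ - 1,
with pairwise distinct levels; hence Kummer's lemma for p = 11.
-/
import Fermat.Agent.Kummer.Defs
import Fermat.Agent.Kummer.UnitsModPow
import Fermat.Agent.Kummer.KLB.Basic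
import Fermat.Agent.Kummer.KLB.Triangular

set_option autoImplicit false
set_option linter.unusedSimpArgs false
set_option linter.unusedSectionVars false

namespace Fermat.Agent.Kummer.KLBCert11

open NumberField Fermat.Agent.Kummer.KLBBasic

theorem prime_p : Nat.Prime 11 := by norm_num

instance factPrime : Fact (Nat.Prime 11) := ⟨prime_p⟩

theorem ident_0 {R : Type*} [CommRing R] (l : R) :
    (l + 1) ^ 1 - 1 * (1 + 1 * l ^ 1) =
      l ^ 2 * (0) + 11 * (0) := by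
  ring

theorem ident_1 {R : Type*} [CommRing R] (l : R) :
    (l + 1) ^ 5 * (∑ t ∈ Finset.range 2, (l + 1) ^ t) ^ 1 - 2 * (1 + 7 * l ^ 2) =
      l ^ 3 * (30 + 20 * l + 7 * l ^ 2 + 1 * l ^ 3) + 11 * (1 * l + 1 * l ^ 2) := by
  simp only [Finset.sum_range_succ, Finset.sum_range_zero]
  ring

theorem ident_2 {R : Type*} [CommRing R] (l : R) :
    (l + 1) ^ 4 * (∑ t ∈ Finset.range 2, (l + 1) ^ t) ^ 1 * (∑ t ∈ Finset.range 3, (l + 1) ^ t) ^ 1 - 6 * (1 + 9 * l ^ 4) =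
      l ^ 5 * (35 + 9 * l + 1 * l ^ 2) + 11 * (3 * l + 7 * l ^ 2 + 9 * l ^ 3 + 2 * l ^ 4) := by
  simp only [Finset.sum_range_succ, Finset.sum_range_zero]
  ring

theorem ident_3 {R : Type*} [CommRing R] (l : R) :
    (l + 1) ^ 5 * (∑ t ∈ Finset.range 2, (l + 1) ^ t) ^ 7 * (∑ t ∈ Finset.range 3, (l + 1) ^ t) ^ 1 * (∑ t ∈ Finset.range 4, (l + 1) ^ t) ^ 1 - 7 * (1 + 1 * l ^ 6) =
      l ^ 7 * (1400576 + 1134390 * l + 736378 * l ^ 2 + 383107 * l ^ 3 + 158816 * l ^ 4 + 51806 * l ^ 5 + 13015 * l ^ 6 + 2431 * l ^ 7 + 318 * l ^ 8 + 26 * l ^ 9 + 1 * l ^ 10) + 11 * (139 + 1536 * l + 7936 * l ^ 2 + 25600 * l ^ 3 + 57792 * l ^ 4 + 96960 * l ^ 5 + 125259 * l ^ 6) := by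
  simp only [Finset.sum_range_succ, Finset.sum_range_zero]
  ring

theorem ident_4 {R : Type*} [CommRing R] (l : R) :
    (l + 1) ^ 1 * (∑ t ∈ Finset.range 2, (l + 1) ^ t) ^ 5 * (∑ t ∈ Finset.range 3, (l + 1) ^ t) ^ 3 * (∑ t ∈ Finset.range 4, (l + 1) ^ t) ^ 9 * (∑ t ∈ Finset.range 5, (l + 1) ^ t) ^ 1 - 2 * (1 + 2 * l ^ 8) =
      l ^ 9 * (2305165798735872 + 4419610328702976 * l + 7547603243409408 * l ^ 2 + 11563406861694976 * l ^ 3 + 15985424996270080 * l ^ 4 + 20033715896656384 * l ^ 5 + 22848215363665408 * l ^ 6 + 23786669523686656 * l ^ 7 + 22660712150194176 * l ^ 8 + 19792769762423040 * l ^ 9 + 15873041340856320 * l ^ 10 + 11699672682272256 * l ^ 11 + 7930706726341632 * l ^ 12 + 4945073649848256 * l ^ 13 + 2835905510736960 * l ^ 14 + 1495000685524192 * l ^ 15 + 723813924216832 * l ^ 16 + 321423505383392 * l ^ 17 + 130687193525184 * l ^ 18 + 48542639750280 * l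 ^ 19 + 16426416552000 * l ^ 20 + 5046765261202 * l ^ 21 + 1401957402334 * l ^ 22 + 350365597981 * l ^ 23 + 78290476616 * l ^ 24 + 15524915819 * l ^ 25 + 2706633614 * l ^ 26 + 410018952 * l ^ 27 + 53159592 * l ^ 28 + 5781714 * l ^ 29 + 513127 * l ^ 30 + 35692 * l ^ 31 + 1825 * l ^ 32 + 61 * l ^ 33 + 1 * l ^ 34) + 11 * (102951098 + 2264924160 * l + 24631050240 * l ^ 2 + 176380968960 * l ^ 3 + 934767230976 * l ^ 4 + 3907088547840 * l ^ 5 + 13403248787456 * l ^ 6 + 38777602310144 * l ^ 7 + 96490319925620 * l ^ 8) := by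
  simp only [Finset.sum_range_succ, Finset.sum_range_zero]
  ring

variable {K : Type*} [Field K] [NumberField K] [IsCyclotomicExtension {11} ℚ K]
  {ζ : K} (hζ : IsPrimitiveRoot ζ 11)

/-- The units `G_j`. -/
noncomputable def G : Fin 5 → (𝓞 K)ˣ :=
  ![zetaUnit hζ ^ 1,
    zetaUnit hζ ^ 5 * (epsUnit hζ 2 (by norm_num)) ^ 1,
    zetaUnit hζ ^ 4 * (epsUnit hζ 2 (by norm_num)) ^ 1 * (epsUnit hζ 3 (by norm_num)) ^ 1,
    zetaUnit hζ ^ 5 * (epsUnit hζ 2 (by norm_num)) ^ 7 * (epsUnit hζ 3 (by norm_num)) ^ 1 * (epsUnit hζ 4 (by norm_num)) ^ 1,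
    zetaUnit hζ ^ 1 * (epsUnit hζ 2 (by norm_num)) ^ 5 * (epsUnit hζ 3 (by norm_num)) ^ 3 * (epsUnit hζ 4 (by norm_num)) ^ 9 * (epsUnit hζ 5 (by norm_num)) ^ 1]

/-- The levels. -/
def lev : Fin 5 → ℕ := ![1, 2, 4, 6, 8]

/-- The leading constants. -/
def c : Fin 5 → ℤ := ![1, 2, 6, 7, 2]

/-- The level coefficients. -/
def d : Fin 5 → ℤ := ![1, 7, 9, 1, 2]

theorem lev_inj : Function.Injective lev := by decide

theorem one_le_lev : ∀ j, 1 ≤ lev j := by decide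

theorem lev_le : ∀ j, lev j + 1 ≤ 11 - 1 := by decide

theorem not_dvd_c : ∀ j, ¬ ((11 : ℕ) : ℤ) ∣ c j := by decide

theorem not_dvd_d : ∀ j, ¬ ((11 : ℕ) : ℤ) ∣ d j := by decide

theorem hG_0 :
    (hζ.toInteger - 1) ^ (lev 0 + 1) ∣
      ((G hζ 0 : 𝓞 K) - (c 0 : 𝓞 K) * (1 + (d 0 : 𝓞 K) * (hζ.toInteger - 1) ^ (lev 0))) := by
  have hp : (hζ.toInteger - 1) ^ 2 ∣ (11 : 𝓞 K) := by
    have := lam_pow_dvd_p hζ (m := 2) (by norm_num)
    simpa using this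
  have hz : hζ.toInteger - 1 + 1 = hζ.toInteger := by ring
  have key := ident_0 (hζ.toInteger - 1)
  rw [hz] at key
  show (hζ.toInteger - 1) ^ 2 ∣
    ((zetaUnit hζ ^ 1 : (𝓞 K)ˣ) : 𝓞 K) -
      ((1 : ℤ) : 𝓞 K) * (1 + ((1 : ℤ) : 𝓞 K) * (hζ.toInteger - 1) ^ 1)
  simp only [Units.val_mul, Units.val_pow_eq_pow_val, coe_zetaUnit, coe_epsUnit,
    Int.cast_ofNat, Int.cast_one]
  rw [key]
  exact dvd_add (dvd_mul_right _ _) (Dvd.dvd.mul_right hp _)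

theorem hG_1 :
    (hζ.toInteger - 1) ^ (lev 1 + 1) ∣
      ((G hζ 1 : 𝓞 K) - (c 1 : 𝓞 K) * (1 + (d 1 : 𝓞 K) * (hζ.toInteger - 1) ^ (lev 1))) := by
  have hp : (hζ.toInteger - 1) ^ 3 ∣ (11 : 𝓞 K) := by
    have := lam_pow_dvd_p hζ (m := 3) (by norm_num)
    simpa using this
  have hz : hζ.toInteger - 1 + 1 = hζ.toInteger := by ring
  have key := ident_1 (hζ.toInteger - 1)
  rw [hz] at key
  show (hζ.toInteger - 1) ^ 3 ∣
    ((zetaUnit hζ ^ 5 * (epsUnit hζ 2 (by norm_num)) ^ 1 : (𝓞 K)ˣ) : 𝓞 K) -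
      ((2 : ℤ) : 𝓞 K) * (1 + ((7 : ℤ) : 𝓞 K) * (hζ.toInteger - 1) ^ 2)
  simp only [Units.val_mul, Units.val_pow_eq_pow_val, coe_zetaUnit, coe_epsUnit,
    Int.cast_ofNat, Int.cast_one]
  rw [key]
  exact dvd_add (dvd_mul_right _ _) (Dvd.dvd.mul_right hp _)

theorem hG_2 :
    (hζ.toInteger - 1) ^ (lev 2 + 1) ∣
      ((G hζ 2 : 𝓞 K) - (c 2 : 𝓞 K) * (1 + (d 2 : 𝓞 K) * (hζ.toInteger - 1) ^ (lev 2))) := by
  have hp : (hζ.toInteger - 1) ^ 5 ∣ (11 : 𝓞 K) := by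
    have := lam_pow_dvd_p hζ (m := 5) (by norm_num)
    simpa using this
  have hz : hζ.toInteger - 1 + 1 = hζ.toInteger := by ring
  have key := ident_2 (hζ.toInteger - 1)
  rw [hz] at key
  show (hζ.toInteger - 1) ^ 5 ∣
    ((zetaUnit hζ ^ 4 * (epsUnit hζ 2 (by norm_num)) ^ 1 * (epsUnit hζ 3 (by norm_num)) ^ 1 : (𝓞 K)ˣ) : 𝓞 K) -
      ((6 : ℤ) : 𝓞 K) * (1 + ((9 : ℤ) : 𝓞 K) * (hζ.toInteger - 1) ^ 4)
  simp only [Units.val_mul, Units.val_pow_eq_pow_val, coe_zetaUnit, coe_epsUnit,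
    Int.cast_ofNat, Int.cast_one]
  rw [key]
  exact dvd_add (dvd_mul_right _ _) (Dvd.dvd.mul_right hp _)

theorem hG_3 :
    (hζ.toInteger - 1) ^ (lev 3 + 1) ∣
      ((G hζ 3 : 𝓞 K) - (c 3 : 𝓞 K) * (1 + (d 3 : 𝓞 K) * (hζ.toInteger - 1) ^ (lev 3))) := by
  have hp : (hζ.toInteger - 1) ^ 7 ∣ (11 : 𝓞 K) := by
    have := lam_pow_dvd_p hζ (m := 7) (by norm_num)
    simpa using this
  have hz : hζ.toInteger - 1 + 1 = hζ.toInteger := by ring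
  have key := ident_3 (hζ.toInteger - 1)
  rw [hz] at key
  show (hζ.toInteger - 1) ^ 7 ∣
    ((zetaUnit hζ ^ 5 * (epsUnit hζ 2 (by norm_num)) ^ 7 * (epsUnit hζ 3 (by norm_num)) ^ 1 * (epsUnit hζ 4 (by norm_num)) ^ 1 : (𝓞 K)ˣ) : 𝓞 K) -
      ((7 : ℤ) : 𝓞 K) * (1 + ((1 : ℤ) : 𝓞 K) * (hζ.toInteger - 1) ^ 6)
  simp only [Units.val_mul, Units.val_pow_eq_pow_val, coe_zetaUnit, coe_epsUnit,
    Int.cast_ofNat, Int.cast_one]
  rw [key]
  exact dvd_add (dvd_mul_right _ _) (Dvd.dvd.mul_right hp _)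

theorem hG_4 :
    (hζ.toInteger - 1) ^ (lev 4 + 1) ∣
      ((G hζ 4 : 𝓞 K) - (c 4 : 𝓞 K) * (1 + (d 4 : 𝓞 K) * (hζ.toInteger - 1) ^ (lev 4))) := by
  have hp : (hζ.toInteger - 1) ^ 9 ∣ (11 : 𝓞 K) := by
    have := lam_pow_dvd_p hζ (m := 9) (by norm_num)
    simpa using this
  have hz : hζ.toInteger - 1 + 1 = hζ.toInteger := by ring
  have key := ident_4 (hζ.toInteger - 1)
  rw [hz] at key
  show (hζ.toInteger - 1) ^ 9 ∣
    ((zetaUnit hζ ^ 1 * (epsUnit hζ 2 (by norm_num)) ^ 5 * (epsUnit hζ 3 (by norm_num)) ^ 3 * (epsUnit hζ 4 (by norm_num)) ^ 9 * (epsUnit hζ 5 (by norm_num)) ^ 1 : (𝓞 K)ˣ) : 𝓞 K) -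
      ((2 : ℤ) : 𝓞 K) * (1 + ((2 : ℤ) : 𝓞 K) * (hζ.toInteger - 1) ^ 8)
  simp only [Units.val_mul, Units.val_pow_eq_pow_val, coe_zetaUnit, coe_epsUnit,
    Int.cast_ofNat, Int.cast_one]
  rw [key]
  exact dvd_add (dvd_mul_right _ _) (Dvd.dvd.mul_right hp _)

theorem hG : ∀ j, (hζ.toInteger - 1) ^ (lev j + 1) ∣
    ((G hζ j : 𝓞 K) - (c j : 𝓞 K) * (1 + (d j : 𝓞 K) * (hζ.toInteger - 1) ^ (lev j))) := by
  intro j
  fin_cases j
  · exact hG_0 hζ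
  · exact hG_1 hζ
  · exact hG_2 hζ
  · exact hG_3 hζ
  · exact hG_4 hζ

end Fermat.Agent.Kummer.KLBCert11

namespace Fermat.Agent.Kummer

open NumberField

/-- Kummer's lemma for `p = 11` (design B). -/
theorem kummerLemmaHoldsB_11 (K : Type*) [Field K] [NumberField K]
    [IsCyclotomicExtension {11} ℚ K] : KummerLemmaHolds 11 K :=
  kummerLemmaHolds_of_indep (p := 11) (by norm_num) K
    (KLBCert11.G (IsCyclotomicExtension.zeta_spec 11 ℚ K))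
    (KLBTriangular.indep_of_levels (p := 11) (by norm_num) K
      (IsCyclotomicExtension.zeta_spec 11 ℚ K)
      (KLBCert11.G (IsCyclotomicExtension.zeta_spec 11 ℚ K)) KLBCert11.lev KLBCert11.c KLBCert11.d
      KLBCert11.lev_inj KLBCert11.one_le_lev KLBCert11.lev_le KLBCert11.not_dvd_c KLBCert11.not_dvd_d
      (KLBCert11.hG (IsCyclotomicExtension.zeta_spec 11 ℚ K)))

end Fermat.Agent.Kummer
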