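/-
Team KUMMER, design B (file generated by helper98's script gen_cert.py).
Level certificates for p = 13: the units G_j (products of powers of ζ and of the cyclotomic
units ε_i = 1 + ζ + ... + ζ^(i-1)) satisfy G_j ≡ c_j (1 + d_j λ^(lev j)) mod λ^(lev j + 1), λ = ζ - 1,
with pairwise distinct levels; hence Kummer's lemma for p = 13.
-/
import Fermat.Agent.Kummer.Defs
import Fermat.Agent.Kummer.UnitsModPow
import Fermat.Agent.Kummer.KLB.Basic
import Fermat.Agent.Kummer.KLB.Triangular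

set_option autoImplicit false
set_option linter.unusedSimpArgs false
set_option linter.unusedSectionVars false

namespace Fermat.Agent.Kummer.KLBCert13

open NumberField Fermat.Agent.Kummer.KLBBasic

theorem prime_p : Nat.Prime 13 := by norm_num

instance factPrime : Fact (Nat.Prime 13) := ⟨prime_p⟩

theorem ident_0 {R : Type*} [CommRing R] (l : R) :
    (l + 1) ^ 1 - 1 * (1 + 1 * l ^ 1) =
      l ^ 2 * (0) + 13 * (0) := by
  ring

theorem ident_1 {R : Type*} [CommRing R] (l : R) :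
    (l + 1) ^ 6 * (∑ t ∈ Finset.range 2, (l + 1) ^ t) ^ 1 - 2 * (1 + 5 * l ^ 2) =
      l ^ 3 * (55 + 50 * l + 27 * l ^ 2 + 8 * l ^ 3 + 1 * l ^ 4) + 13 * (1 * l + 2 * l ^ 2) := by
  simp only [Finset.sum_range_succ, Finset.sum_range_zero]
  ring

theorem ident_2 {R : Type*} [CommRing R] (l : R) :
    (l + 1) ^ 9 * (∑ t ∈ Finset.range 2, (l + 1) ^ t) ^ 6 * (∑ t ∈ Finset.range 3, (l + 1) ^ t) ^ 1 - 10 * (1 + 11 * l ^ 4) =
      l ^ 5 * (293788 + 437067 * l + 508218 * l ^ 2 + 467692 * l ^ 3 + 342633 * l ^ 4 + 199866 * l ^ 5 + 92320 * l ^ 6 + 33360 * l ^ 7 + 9234 * l ^ 8 + 1891 * l ^ 9 + 270 * l ^ 10 + 24 * l ^ 11 + 1 * l ^ 12) + 13 * (14 + 192 * l + 1168 * l ^ 2 + 4416 * l ^ 3 + 11614 * l ^ 4) := by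
  simp only [Finset.sum_range_succ, Finset.sum_range_zero]
  ring

theorem ident_3 {R : Type*} [CommRing R] (l : R) :
    (l + 1) ^ 6 * (∑ t ∈ Finset.range 2, (l + 1) ^ t) ^ 7 * (∑ t ∈ Finset.range 3, (l + 1) ^ t) ^ 2 * (∑ t ∈ Finset.range 4, (l + 1) ^ t) ^ 1 - 6 * (1 + 1 * l ^ 6) =
      l ^ 7 * (17370816 + 18384610 * l + 15995634 * l ^ 2 + 11505725 * l ^ 3 + 6854992 * l ^ 4 + 3377120 * l ^ 5 + 1368252 * l ^ 6 + 451423 * l ^ 7 + 119406 * l ^ 8 + 24725 * l ^ 9 + 3862 * l ^ 10 + 428 * l ^ 11 + 30 * l ^ 12 + 1 * l ^ 13) + 13 * (354 + 4608 * l + 28416 * l ^ 2 + 110592 * l ^ 3 + 304832 * l ^ 4 + 632896 * l ^ 5 + 1027490 * l ^ 6) := by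
  simp only [Finset.sum_range_succ, Finset.sum_range_zero]
  ring

theorem ident_4 {R : Type*} [CommRing R] (l : R) :
    (l + 1) ^ 1 * (∑ t ∈ Finset.range 2, (l + 1) ^ t) ^ 12 * (∑ t ∈ Finset.range 3, (l + 1) ^ t) ^ 11 * (∑ t ∈ Finset.range 4, (l + 1) ^ t) ^ 4 * (∑ t ∈ Finset.range 5, (l + 1) ^ t) ^ 1 - 2 * (1 + 1 * l ^ 8) =
      l ^ 9 * (8347404726401089536 + 18942510782495195136 * l + 38373620645677473792 * l ^ 2 + 69925855887587718144 * l ^ 3 + 115335574760501121024 * l ^ 4 + 173084311462192584192 * l ^ 5 + 237355452653467470336 * l ^ 6 + 298513141041364994160 * l ^ 7 + 345361898720212224480 * l ^ 8 + 368504843867794268208 * l ^ 9 + 363410755269208792128 * l ^ 10 + 331822757823482615448 * l ^ 11 + 280927591492257057792 * l ^ 12 + 220780338126232840280 * l ^ 13 + 161207287928040836520 * l ^ 14 + 109430469851373488023 * l ^ 15 + 69085735567961362842 * l ^ 16 + 40569724047061739891 * l ^ 17 + 22158881832581570906 * l ^ 18 + 11253713595792826974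 * l ^ 19 + 5311484770042955534 * l ^ 20 + 2327951798220100034 * l ^ 21 + 946512257187276813 * l ^ 22 + 356542519937305681 * l ^ 23 + 124233728089432351 * l ^ 24 + 39964904468750620 * l ^ 25 + 11842319522347877 * l ^ 26 + 3223574406440014 * l ^ 27 + 803512104244744 * l ^ 28 + 182708912358908 * l ^ 29 + 37730749767577 * l ^ 30 + 7038572370199 * l ^ 31 + 1178553968353 * l ^ 32 + 175760802492 * l ^ 33 + 23123928551 * l ^ 34 + 2652078380 * l ^ 35 + 261131712 * l ^ 36 + 21633146 * l ^ 37 + 1466615 * l ^ 38 + 78144 * l ^ 39 + 3069 * l ^ 40 + 79 * l ^ 41 + 1 * l ^ 42) + 13 * (71443112566 + 1857520926720 * l + 23838185226240 * l ^ 2 + 201231433728000 * l ^ 3 + 1256391036370944 * l ^ 4 + 6185173181792256 * l ^ 5 + 24995428503257088 * l ^ 6 + 85237747432685568 * l ^ 7 + 250241042525422198 * l ^ 8) := by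
  simp only [Finset.sum_range_succ, Finset.sum_range_zero]
  ring

theorem ident_5 {R : Type*} [CommRing R] (l : R) :
    (l + 1) ^ 2 * (∑ t ∈ Finset.range 2, (l + 1) ^ t) ^ 3 * (∑ t ∈ Finset.range 3, (l + 1) ^ t) ^ 10 * (∑ t ∈ Finset.range 4, (l + 1) ^ t) ^ 12 * (∑ t ∈ Finset.range 5, (l + 1) ^ t) ^ 9 * (∑ t ∈ Finset.range 6, (l + 1) ^ t) ^ 1 - 5 * (1 + 2 * l ^ 10) =
      l ^ 11 * (14150216917687683757178880000000 + 58501857226182800250949632000000 * l + 222031619533622363847155712000000 * l ^ 2 + 778012073774733816040863744000000 * l ^ 3 + 2529390074582291520922675200000000 * l ^ 4 + 7662097831814764652519875929600000 * l ^ 5 + 21706580230971734023673477990400000 * l ^ 6 + 57698105063985882844782916723200000 * l ^ 7 + 144314298479589874779651349363200000 * l ^ 8 + 340524000320417796772261234801920000 * l ^ 9 + 759750956292877338508135505418240000 * l ^ 10 + 1606100163989489271558315856766720000 * l ^ 11 + 3222967988374078111047024654400000000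 * l ^ 12 + 6149617269276215830431013379435936000 * l ^ 13 + 11173970227696699854553059370400000000 * l ^ 14 + 19361211109430881142889128613574624000 * l ^ 15 + 32030790402633965902271085667100576000 * l ^ 16 + 50653488100611325246752420408272108800 * l ^ 17 + 76649759290515439980712915059437446400 * l ^ 18 + 111092827715991491573534871692373932800 * l ^ 19 + 154352460352934881240572551802181433600 * l ^ 20 + 205749841371528772961656338493579876240 * l ^ 21 + 263317842632866756883771014805201963840 * l ^ 22 + 323761330168805715468739615952117080880 * l ^ 23 + 382681442682110288023732118682691342000 * l ^ 24 + 435068832920866682530771278239667617672 * l ^ 25 + 475998150906445048029531514914618274528 * l ^ 26 + 501392052392570709898947882593282071064 * l ^ 27 + 508690355660089484207147647057586675344 * l ^ 28 + 497272393519662284330784328533171158423 * l ^ 29 + 468536868276336279271364625401089871584 * l ^ 30 + 425627099994923912886912368571252334829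 * l ^ 31 + 372874611858985579312666802877974578595 * l ^ 32 + 315094954312585888675079861508619918042 * l ^ 33 + 256890396744334551685562302740940281833 * l ^ 34 + 202092819366898439027257403844264997048 * l ^ 35 + 153428416321890723455330198872301270555 * l ^ 36 + 112422897659014783630546219179707231125 * l ^ 37 + 79510967765534585060140463441457894761 * l ^ 38 + 54279910696960538929236754360747088869 * l ^ 39 + 35768026946675632149898040628203019116 * l ^ 40 + 22750244910475765343555802321893470673 * l ^ 41 + 13966622129499576589104353055861904114 * l ^ 42 + 8275178576835601537650410557440605147 * l ^ 43 + 4731489834777344129269582559773662505 * l ^ 44 + 2610322063623617835300846740621566811 * l ^ 45 + 1389293642896054487916863778130329859 * l ^ 46 + 713202156659834971687475944519935055 * l ^ 47 + 353062158109023678384513179946812216 * l ^ 48 + 168498831038162745478336972567147429 * l ^ 49 + 77503727161330255436019171919325002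 * l ^ 50 + 34346775770483316574199414694425627 * l ^ 51 + 14659833848858568034080836852535421 * l ^ 52 + 6023894147293334818472453374892069 * l ^ 53 + 2381984971032198396975668551179319 * l ^ 54 + 905949488235786074894569024018721 * l ^ 55 + 331239934638222509234447489131398 * l ^ 56 + 116360320672368685895151893723001 * l ^ 57 + 39248069545421740460619085208868 * l ^ 58 + 12702429220964970918146724084615 * l ^ 59 + 3941746550106480509979937711791 * l ^ 60 + 1171857197724430766922935071584 * l ^ 61 + 333476586032016492332055616269 * l ^ 62 + 90750373418971193337498484518 * l ^ 63 + 23592595221642429296853100059 * l ^ 64 + 5852743134407753915538251829 * l ^ 65 + 1383783481533851148286932255 * l ^ 66 + 311402163879854005717709073 * l ^ 67 + 66601733030794085886776922 * l ^ 68 + 13516509874999196028015642 * l ^ 69 + 2598332400604214135674962 * l ^ 70 + 472208593016946164888130 * l ^ 71 + 80956334036120398720956 * l ^ 72 + 13062059347415829514602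 * l ^ 73 + 1978169201984652699016 * l ^ 74 + 280358765276258194946 * l ^ 75 + 37060181622000270010 * l ^ 76 + 4551889846385215477 * l ^ 77 + 517224278182363358 * l ^ 78 + 54099474319473823 * l ^ 79 + 5178465651199703 * l ^ 80 + 450526004103040 * l ^ 81 + 35333560198349 * l ^ 82 + 2473318584218 * l ^ 83 + 152631080629 * l ^ 84 + 8174777228 * l ^ 85 + 372273671 * l ^ 86 + 14015386 * l ^ 87 + 418805 * l ^ 88 + 9313 * l ^ 89 + 137 * l ^ 90 + 1 * l ^ 91) + 13 * (7144311256615384615 + 371504185344000000000 * l + 9628150136832000000000 * l ^ 2 + 165783742709760000000000 * l ^ 3 + 2133142461716889600000000 * l ^ 4 + 21873211873689600000000000 * l ^ 5 + 186147310949852774400000000 * l ^ 6 + 1352058673768995225600000000 * l ^ 7 + 8554464962822582599680000000 * l ^ 8 + 47884802322384004055040000000 * l ^ 9 + 240057353747837362629710769230 * l ^ 10) := by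
  simp only [Finset.sum_range_succ, Finset.sum_range_zero]
  ring

variable {K : Type*} [Field K] [NumberField K] [IsCyclotomicExtension {13} ℚ K]
  {ζ : K} (hζ : IsPrimitiveRoot ζ 13)

/-- The units `G_j`. -/
noncomputable def G : Fin 6 → (𝓞 K)ˣ :=
  ![zetaUnit hζ ^ 1,
    zetaUnit hζ ^ 6 * (epsUnit hζ 2 (by norm_num)) ^ 1,
    zetaUnit hζ ^ 9 * (epsUnit hζ 2 (by norm_num)) ^ 6 * (epsUnit hζ 3 (by norm_num)) ^ 1,
    zetaUnit hζ ^ 6 * (epsUnit hζ 2 (by norm_num)) ^ 7 * (epsUnit hζ 3 (by norm_num)) ^ 2 * (epsUnit hζ 4 (by norm_num)) ^ 1,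
    zetaUnit hζ ^ 1 * (epsUnit hζ 2 (by norm_num)) ^ 12 * (epsUnit hζ 3 (by norm_num)) ^ 11 * (epsUnit hζ 4 (by norm_num)) ^ 4 * (epsUnit hζ 5 (by norm_num)) ^ 1,
    zetaUnit hζ ^ 2 * (epsUnit hζ 2 (by norm_num)) ^ 3 * (epsUnit hζ 3 (by norm_num)) ^ 10 * (epsUnit hζ 4 (by norm_num)) ^ 12 * (epsUnit hζ 5 (by norm_num)) ^ 9 * (epsUnit hζ 6 (by norm_num)) ^ 1]

/-- The levels. -/
def lev : Fin 6 → ℕ := ![1, 2, 4, 6, 8, 10]

/-- The leading constants. -/
def c : Fin 6 → ℤ := ![1, 2, 10, 6, 2, 5]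

/-- The level coefficients. -/
def d : Fin 6 → ℤ := ![1, 5, 11, 1, 1, 2]

theorem lev_inj : Function.Injective lev := by decide

theorem one_le_lev : ∀ j, 1 ≤ lev j := by decide

theorem lev_le : ∀ j, lev j + 1 ≤ 13 - 1 := by decide

theorem not_dvd_c : ∀ j, ¬ ((13 : ℕ) : ℤ) ∣ c j := by decide

theorem not_dvd_d : ∀ j, ¬ ((13 : ℕ) : ℤ) ∣ d j := by decide

theorem hG_0 :
    (hζ.toInteger - 1) ^ (lev 0 + 1) ∣
      ((G hζ 0 : 𝓞 K) - (c 0 : 𝓞 K) * (1 + (d 0 : 𝓞 K) * (hζ.toInteger - 1) ^ (lev 0))) := by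
  have hp : (hζ.toInteger - 1) ^ 2 ∣ (13 : 𝓞 K) := by
    have := lam_pow_dvd_p hζ (m := 2) (by norm_num)
    simpa using this
  have hz : hζ.toInteger - 1 + 1 = hζ.toInteger := by ring
  have key := ident_0 (hζ.toInteger - 1)
  rw [hz] at key
  show (hζ.toInteger - 1) ^ 2 ∣
    ((zetaUnit hζ ^ 1 : (𝓞 K)ˣ) : 𝓞 K) -
      ((1 : ℤ) : 𝓞 K) * (1 + ((1 : ℤ) : 𝓞 K) * (hζ.toInteger - 1) ^ 1)
  simp only [Units.val_mul, Units.val_pow_eq_pow_val, coe_zetaUnit, coe_epsUnit,
    Int.cast_ofNat, Int.cast_one]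
  rw [key]
  exact dvd_add (dvd_mul_right _ _) (Dvd.dvd.mul_right hp _)

theorem hG_1 :
    (hζ.toInteger - 1) ^ (lev 1 + 1) ∣
      ((G hζ 1 : 𝓞 K) - (c 1 : 𝓞 K) * (1 + (d 1 : 𝓞 K) * (hζ.toInteger - 1) ^ (lev 1))) := by
  have hp : (hζ.toInteger - 1) ^ 3 ∣ (13 : 𝓞 K) := by
    have := lam_pow_dvd_p hζ (m := 3) (by norm_num)
    simpa using this
  have hz : hζ.toInteger - 1 + 1 = hζ.toInteger := by ring
  have key := ident_1 (hζ.toInteger - 1)
  rw [hz] at key
  show (hζ.toInteger - 1) ^ 3 ∣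
    ((zetaUnit hζ ^ 6 * (epsUnit hζ 2 (by norm_num)) ^ 1 : (𝓞 K)ˣ) : 𝓞 K) -
      ((2 : ℤ) : 𝓞 K) * (1 + ((5 : ℤ) : 𝓞 K) * (hζ.toInteger - 1) ^ 2)
  simp only [Units.val_mul, Units.val_pow_eq_pow_val, coe_zetaUnit, coe_epsUnit,
    Int.cast_ofNat, Int.cast_one]
  rw [key]
  exact dvd_add (dvd_mul_right _ _) (Dvd.dvd.mul_right hp _)

theorem hG_2 :
    (hζ.toInteger - 1) ^ (lev 2 + 1) ∣
      ((G hζ 2 : 𝓞 K) - (c 2 : 𝓞 K) * (1 + (d 2 : 𝓞 K) * (hζ.toInteger - 1) ^ (lev 2))) := by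
  have hp : (hζ.toInteger - 1) ^ 5 ∣ (13 : 𝓞 K) := by
    have := lam_pow_dvd_p hζ (m := 5) (by norm_num)
    simpa using this
  have hz : hζ.toInteger - 1 + 1 = hζ.toInteger := by ring
  have key := ident_2 (hζ.toInteger - 1)
  rw [hz] at key
  show (hζ.toInteger - 1) ^ 5 ∣
    ((zetaUnit hζ ^ 9 * (epsUnit hζ 2 (by norm_num)) ^ 6 * (epsUnit hζ 3 (by norm_num)) ^ 1 : (𝓞 K)ˣ) : 𝓞 K) -
      ((10 : ℤ) : 𝓞 K) * (1 + ((11 : ℤ) : 𝓞 K) * (hζ.toInteger - 1) ^ 4)
  simp only [Units.val_mul, Units.val_pow_eq_pow_val, coe_zetaUnit, coe_epsUnit,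
    Int.cast_ofNat, Int.cast_one]
  rw [key]
  exact dvd_add (dvd_mul_right _ _) (Dvd.dvd.mul_right hp _)

theorem hG_3 :
    (hζ.toInteger - 1) ^ (lev 3 + 1) ∣
      ((G hζ 3 : 𝓞 K) - (c 3 : 𝓞 K) * (1 + (d 3 : 𝓞 K) * (hζ.toInteger - 1) ^ (lev 3))) := by
  have hp : (hζ.toInteger - 1) ^ 7 ∣ (13 : 𝓞 K) := by
    have := lam_pow_dvd_p hζ (m := 7) (by norm_num)
    simpa using this
  have hz : hζ.toInteger - 1 + 1 = hζ.toInteger := by ring
  have key := ident_3 (hζ.toInteger - 1)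
  rw [hz] at key
  show (hζ.toInteger - 1) ^ 7 ∣
    ((zetaUnit hζ ^ 6 * (epsUnit hζ 2 (by norm_num)) ^ 7 * (epsUnit hζ 3 (by norm_num)) ^ 2 * (epsUnit hζ 4 (by norm_num)) ^ 1 : (𝓞 K)ˣ) : 𝓞 K) -
      ((6 : ℤ) : 𝓞 K) * (1 + ((1 : ℤ) : 𝓞 K) * (hζ.toInteger - 1) ^ 6)
  simp only [Units.val_mul, Units.val_pow_eq_pow_val, coe_zetaUnit, coe_epsUnit,
    Int.cast_ofNat, Int.cast_one]
  rw [key]
  exact dvd_add (dvd_mul_right _ _) (Dvd.dvd.mul_right hp _)

theorem hG_4 :
    (hζ.toInteger - 1) ^ (lev 4 + 1) ∣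
      ((G hζ 4 : 𝓞 K) - (c 4 : 𝓞 K) * (1 + (d 4 : 𝓞 K) * (hζ.toInteger - 1) ^ (lev 4))) := by
  have hp : (hζ.toInteger - 1) ^ 9 ∣ (13 : 𝓞 K) := by
    have := lam_pow_dvd_p hζ (m := 9) (by norm_num)
    simpa using this
  have hz : hζ.toInteger - 1 + 1 = hζ.toInteger := by ring
  have key := ident_4 (hζ.toInteger - 1)
  rw [hz] at key
  show (hζ.toInteger - 1) ^ 9 ∣
    ((zetaUnit hζ ^ 1 * (epsUnit hζ 2 (by norm_num)) ^ 12 * (epsUnit hζ 3 (by norm_num)) ^ 11 * (epsUnit hζ 4 (by norm_num)) ^ 4 * (epsUnit hζ 5 (by norm_num)) ^ 1 : (𝓞 K)ˣ) : 𝓞 K) -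
      ((2 : ℤ) : 𝓞 K) * (1 + ((1 : ℤ) : 𝓞 K) * (hζ.toInteger - 1) ^ 8)
  simp only [Units.val_mul, Units.val_pow_eq_pow_val, coe_zetaUnit, coe_epsUnit,
    Int.cast_ofNat, Int.cast_one]
  rw [key]
  exact dvd_add (dvd_mul_right _ _) (Dvd.dvd.mul_right hp _)

theorem hG_5 :
    (hζ.toInteger - 1) ^ (lev 5 + 1) ∣
      ((G hζ 5 : 𝓞 K) - (c 5 : 𝓞 K) * (1 + (d 5 : 𝓞 K) * (hζ.toInteger - 1) ^ (lev 5))) := by
  have hp : (hζ.toInteger - 1) ^ 11 ∣ (13 : 𝓞 K) := by
    have := lam_pow_dvd_p hζ (m := 11) (by norm_num)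
    simpa using this
  have hz : hζ.toInteger - 1 + 1 = hζ.toInteger := by ring
  have key := ident_5 (hζ.toInteger - 1)
  rw [hz] at key
  show (hζ.toInteger - 1) ^ 11 ∣
    ((zetaUnit hζ ^ 2 * (epsUnit hζ 2 (by norm_num)) ^ 3 * (epsUnit hζ 3 (by norm_num)) ^ 10 * (epsUnit hζ 4 (by norm_num)) ^ 12 * (epsUnit hζ 5 (by norm_num)) ^ 9 * (epsUnit hζ 6 (by norm_num)) ^ 1 : (𝓞 K)ˣ) : 𝓞 K) -
      ((5 : ℤ) : 𝓞 K) * (1 + ((2 : ℤ) : 𝓞 K) * (hζ.toInteger - 1) ^ 10)
  simp only [Units.val_mul, Units.val_pow_eq_pow_val, coe_zetaUnit, coe_epsUnit,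
    Int.cast_ofNat, Int.cast_one]
  rw [key]
  exact dvd_add (dvd_mul_right _ _) (Dvd.dvd.mul_right hp _)

theorem hG : ∀ j, (hζ.toInteger - 1) ^ (lev j + 1) ∣
    ((G hζ j : 𝓞 K) - (c j : 𝓞 K) * (1 + (d j : 𝓞 K) * (hζ.toInteger - 1) ^ (lev j))) := by
  intro j
  fin_cases j
  · exact hG_0 hζ
  · exact hG_1 hζ
  · exact hG_2 hζ
  · exact hG_3 hζ
  · exact hG_4 hζ
  · exact hG_5 hζ

end Fermat.Agent.Kummer.KLBCert13

namespace Fermat.Agent.Kummer

open NumberField

/-- Kummer's lemma for `p = 13` (design B). -/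
theorem kummerLemmaHoldsB_13 (K : Type*) [Field K] [NumberField K]
    [IsCyclotomicExtension {13} ℚ K] : KummerLemmaHolds 13 K :=
  kummerLemmaHolds_of_indep (p := 13) (by norm_num) K
    (KLBCert13.G (IsCyclotomicExtension.zeta_spec 13 ℚ K))
    (KLBTriangular.indep_of_levels (p := 13) (by norm_num) K
      (IsCyclotomicExtension.zeta_spec 13 ℚ K)
      (KLBCert13.G (IsCyclotomicExtension.zeta_spec 13 ℚ K)) KLBCert13.lev KLBCert13.c KLBCert13.d
      KLBCert13.lev_inj KLBCert13.one_le_lev KLBCert13.lev_le KLBCert13.not_dvd_c KLBCert13.not_dvd_d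
      (KLBCert13.hG (IsCyclotomicExtension.zeta_spec 13 ℚ K)))

end Fermat.Agent.Kummer
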