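/-
Team KUMMER, design B (file generated by helper98's script gen_cert.py).
Level certificates for p = 5: the units G_j (products of powers of ζ and of the cyclotomic
units ε_i = 1 + ζ + ... + ζ^(i-1)) satisfy G_j ≡ c_j (1 + d_j λ^(lev j)) mod λ^(lev j + 1), λ = ζ - 1,
with pairwise distinct levels; hence Kummer's lemma for p = 5.
-/
import Fermat.Agent.Kummer.Defs
import Fermat.Agent.Kummer.UnitsModPow
import Fermat.Agent.Kummer.KLB.Basic
import Fermat.Agent.Kummer.KLB.Triangular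

set_option autoImplicit false
set_option linter.unusedSimpArgs false
set_option linter.unusedSectionVars false

namespace Fermat.Agent.Kummer.KLBCert5

open NumberField Fermat.Agent.Kummer.KLBBasic

theorem prime_p : Nat.Prime 5 := by norm_num

instance factPrime : Fact (Nat.Prime 5) := ⟨prime_p⟩

theorem ident_0 {R : Type*} [CommRing R] (l : R) :
    (l + 1) ^ 1 - 1 * (1 + 1 * l ^ 1) =
      l ^ 2 * (0) + 5 * (0) := by
  ring

theorem ident_1 {R : Type*} [CommRing R] (l : R) :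
    (l + 1) ^ 2 * (∑ t ∈ Finset.range 2, (l + 1) ^ t) ^ 1 - 2 * (1 + 2 * l ^ 2) =
      l ^ 3 * (1) + 5 * (1 * l) := by
  simp only [Finset.sum_range_succ, Finset.sum_range_zero]
  ring

variable {K : Type*} [Field K] [NumberField K] [IsCyclotomicExtension {5} ℚ K]
  {ζ : K} (hζ : IsPrimitiveRoot ζ 5)

/-- The units `G_j`. -/
noncomputable def G : Fin 2 → (𝓞 K)ˣ :=
  ![zetaUnit hζ ^ 1,
    zetaUnit hζ ^ 2 * (epsUnit hζ 2 (by norm_num)) ^ 1]

/-- The levels. -/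
def lev : Fin 2 → ℕ := ![1, 2]

/-- The leading constants. -/
def c : Fin 2 → ℤ := ![1, 2]

/-- The level coefficients. -/
def d : Fin 2 → ℤ := ![1, 2]

theorem lev_inj : Function.Injective lev := by decide

theorem one_le_lev : ∀ j, 1 ≤ lev j := by decide

theorem lev_le : ∀ j, lev j + 1 ≤ 5 - 1 := by decide

theorem not_dvd_c : ∀ j, ¬ ((5 : ℕ) : ℤ) ∣ c j := by decide

theorem not_dvd_d : ∀ j, ¬ ((5 : ℕ) : ℤ) ∣ d j := by decide

theorem hG_0 :
    (hζ.toInteger - 1) ^ (lev 0 + 1) ∣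
      ((G hζ 0 : 𝓞 K) - (c 0 : 𝓞 K) * (1 + (d 0 : 𝓞 K) * (hζ.toInteger - 1) ^ (lev 0))) := by
  have hp : (hζ.toInteger - 1) ^ 2 ∣ (5 : 𝓞 K) := by
    have := lam_pow_dvd_p hζ (m := 2) (by norm_num)
    simpa using this
  have hz : hζ.toInteger - 1 + 1 = hζ.toInteger := by ring
  have key := ident_0 (hζ.toInteger - 1)
  rw [hz] at key
  show (hζ.toInteger - 1) ^ 2 ∣
    ((zetaUnit hζ ^ 1 : (𝓞 K)ˣ) : 𝓞 K) -
      ((1 : ℤ) : 𝓞 K) * (1 + ((1 : ℤ) : 𝓞 K) * (hζ.toInteger - 1) ^ 1)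
  simp only [Units.val_mul, Units.val_pow_eq_pow_val, coe_zetaUnit, coe_epsUnit,
    Int.cast_ofNat, Int.cast_one]
  rw [key]
  exact dvd_add (dvd_mul_right _ _) (Dvd.dvd.mul_right hp _)

theorem hG_1 :
    (hζ.toInteger - 1) ^ (lev 1 + 1) ∣
      ((G hζ 1 : 𝓞 K) - (c 1 : 𝓞 K) * (1 + (d 1 : 𝓞 K) * (hζ.toInteger - 1) ^ (lev 1))) := by
  have hp : (hζ.toInteger - 1) ^ 3 ∣ (5 : 𝓞 K) := by
    have := lam_pow_dvd_p hζ (m := 3) (by norm_num)
    simpa using this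
  have hz : hζ.toInteger - 1 + 1 = hζ.toInteger := by ring
  have key := ident_1 (hζ.toInteger - 1)
  rw [hz] at key
  show (hζ.toInteger - 1) ^ 3 ∣
    ((zetaUnit hζ ^ 2 * (epsUnit hζ 2 (by norm_num)) ^ 1 : (𝓞 K)ˣ) : 𝓞 K) -
      ((2 : ℤ) : 𝓞 K) * (1 + ((2 : ℤ) : 𝓞 K) * (hζ.toInteger - 1) ^ 2)
  simp only [Units.val_mul, Units.val_pow_eq_pow_val, coe_zetaUnit, coe_epsUnit,
    Int.cast_ofNat, Int.cast_one]
  rw [key]
  exact dvd_add (dvd_mul_right _ _) (Dvd.dvd.mul_right hp _)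

theorem hG : ∀ j, (hζ.toInteger - 1) ^ (lev j + 1) ∣
    ((G hζ j : 𝓞 K) - (c j : 𝓞 K) * (1 + (d j : 𝓞 K) * (hζ.toInteger - 1) ^ (lev j))) := by
  intro j
  fin_cases j
  · exact hG_0 hζ
  · exact hG_1 hζ

end Fermat.Agent.Kummer.KLBCert5

namespace Fermat.Agent.Kummer

open NumberField

/-- Kummer's lemma for `p = 5` (design B). -/
theorem kummerLemmaHoldsB_5 (K : Type*) [Field K] [NumberField K]
    [IsCyclotomicExtension {5} ℚ K] : KummerLemmaHolds 5 K :=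
  kummerLemmaHolds_of_indep (p := 5) (by norm_num) K
    (KLBCert5.G (IsCyclotomicExtension.zeta_spec 5 ℚ K))
    (KLBTriangular.indep_of_levels (p := 5) (by norm_num) K
      (IsCyclotomicExtension.zeta_spec 5 ℚ K)
      (KLBCert5.G (IsCyclotomicExtension.zeta_spec 5 ℚ K)) KLBCert5.lev KLBCert5.c KLBCert5.d
      KLBCert5.lev_inj KLBCert5.one_le_lev KLBCert5.lev_le KLBCert5.not_dvd_c KLBCert5.not_dvd_d
      (KLBCert5.hG (IsCyclotomicExtension.zeta_spec 5 ℚ K)))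

end Fermat.Agent.Kummer
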