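/-
Team KUMMER, design B, certificate for `p = 7` (owner: helper48).
Kummer's lemma for the 7-th cyclotomic field: the units `ζ`, `ζ³(1+ζ)`, `ζ⁵(1+ζ)²(1+ζ+ζ²)` have
`λ`-adic levels `1, 2, 4` (`λ = ζ - 1`), so they are independent modulo units congruent to a
rational integer modulo `7` (triangular criterion), and Dirichlet counting finishes.
-/
import Fermat.Agent.Kummer.Defs
import Fermat.Agent.Kummer.UnitsModPow
import Fermat.Agent.Kummer.KLB.Triangular

set_option autoImplicit false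

namespace Fermat.Agent.Kummer.KLBCert7

open NumberField

/-- `7` is prime, as a `Fact`. -/
instance factPrimeSeven : Fact (Nat.Prime 7) := ⟨by norm_num⟩

section

variable (K : Type*) [Field K] [NumberField K] [IsCyclotomicExtension {7} ℚ K]

/-- The chosen primitive 7-th root of unity, as an algebraic integer. -/
noncomputable abbrev θ : 𝓞 K := (IsCyclotomicExtension.zeta_spec 7 ℚ K).toInteger

theorem θ_pow_seven : θ K ^ 7 = 1 :=
  (IsCyclotomicExtension.zeta_spec 7 ℚ K).toInteger_isPrimitiveRoot.pow_eq_one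

theorem θ_geom : 1 + θ K + θ K ^ 2 + θ K ^ 3 + θ K ^ 4 + θ K ^ 5 + θ K ^ 6 = 0 := by
  have h := (IsCyclotomicExtension.zeta_spec 7 ℚ K).toInteger_isPrimitiveRoot.geom_sum_eq_zero
    (by norm_num : 1 < 7)
  simpa [Finset.sum_range_succ] using h

/-- `ζ` as a unit. -/
noncomputable def zU : (𝓞 K)ˣ where
  val := θ K
  inv := θ K ^ 6
  val_inv := by linear_combination θ_pow_seven K
  inv_val := by linear_combination θ_pow_seven K

/-- `1 + ζ` as a unit. -/
noncomputable def e2U : (𝓞 K)ˣ where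
  val := 1 + θ K
  inv := 1 + θ K ^ 2 + θ K ^ 4 + θ K ^ 6
  val_inv := by linear_combination θ_pow_seven K + θ_geom K
  inv_val := by linear_combination θ_pow_seven K + θ_geom K

/-- `1 + ζ + ζ²` as a unit. -/
noncomputable def e3U : (𝓞 K)ˣ where
  val := 1 + θ K + θ K ^ 2
  inv := 1 + θ K ^ 2 + θ K ^ 3 + θ K ^ 5 + θ K ^ 6
  val_inv := by linear_combination (2 + θ K) * θ_pow_seven K + 2 * θ_geom K
  inv_val := by linear_combination (2 + θ K) * θ_pow_seven K + 2 * θ_geom K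

/-- The three units of the certificate. -/
noncomputable def G : Fin 3 → (𝓞 K)ˣ :=
  ![zU K, zU K ^ 3 * e2U K, zU K ^ 5 * e2U K ^ 2 * e3U K]

/-- The `λ`-adic levels. -/
def lev : Fin 3 → ℕ := ![1, 2, 4]

/-- The constant terms. -/
def cc : Fin 3 → ℤ := ![1, 2, 5]

/-- The normalised leading coefficients. -/
def dd : Fin 3 → ℤ := ![1, 1, 3]

theorem lev_injective : Function.Injective lev := by decide

theorem one_le_lev : ∀ j, 1 ≤ lev j := by decide

theorem lev_add_one_le : ∀ j, lev j + 1 ≤ 7 - 1 := by decide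

theorem not_dvd_cc : ∀ j, ¬ ((7 : ℕ) : ℤ) ∣ cc j := by decide

theorem not_dvd_dd : ∀ j, ¬ ((7 : ℕ) : ℤ) ∣ dd j := by decide

/-- `λ ^ m ∣ 7` for `m ≤ 6`. -/
theorem lam_pow_dvd_seven {m : ℕ} (hm : m ≤ 6) : (θ K - 1) ^ m ∣ (7 : 𝓞 K) := by
  have h := (IsCyclotomicExtension.Rat.associated_zeta_sub_one_pow_prime 7
    (IsCyclotomicExtension.zeta_spec 7 ℚ K)).dvd
  have h7 : (((7 : ℕ) : 𝓞 K)) = 7 := by norm_num
  rw [h7] at h
  exact (pow_dvd_pow _ hm).trans h

theorem hG : ∀ j, (θ K - 1) ^ (lev j + 1) ∣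
    ((G K j : 𝓞 K) - cc j * (1 + dd j * (θ K - 1) ^ (lev j))) := by
  intro j
  fin_cases j
  · -- level 1: `ζ = 1 + λ`
    have : ((G K 0 : (𝓞 K)ˣ) : 𝓞 K) - cc 0 * (1 + dd 0 * (θ K - 1) ^ (lev 0)) = 0 := by
      simp [G, zU, cc, dd, lev]
    simp only [Fin.zero_eta, this, dvd_zero]
  · -- level 2
    have key : ((G K 1 : (𝓞 K)ˣ) : 𝓞 K) - cc 1 * (1 + dd 1 * (θ K - 1) ^ (lev 1)) =
        7 * ((θ K - 1) + (θ K - 1) ^ 2) + (θ K - 1) ^ 3 * (5 + (θ K - 1)) := by
      simp only [G, zU, e2U, cc, dd, lev, Matrix.cons_val_one, Matrix.cons_val_zero,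
        Units.val_mul, Units.val_pow_eq_pow_val]
      push_cast
      ring
    have hlev : lev 1 + 1 = 3 := rfl
    simp only [Fin.mk_one, key, hlev]
    exact dvd_add (Dvd.dvd.mul_right (lam_pow_dvd_seven K (by norm_num)) _) (dvd_mul_right _ _)
  · -- level 4
    have key : ((G K 2 : (𝓞 K)ˣ) : 𝓞 K) - cc 2 * (1 + dd 2 * (θ K - 1) ^ (lev 2)) =
        7 * (1 + 12 * (θ K - 1) + 37 * (θ K - 1) ^ 2 + 66 * (θ K - 1) ^ 3
          + 73 * (θ K - 1) ^ 4)
        + (θ K - 1) ^ 5 * (397 + 199 * (θ K - 1) + 64 * (θ K - 1) ^ 2 + 12 * (θ K - 1) ^ 3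
          + (θ K - 1) ^ 4) := by
      simp only [G, zU, e2U, e3U, cc, dd, lev, Matrix.cons_val_two, Matrix.head_cons,
        Matrix.tail_cons, Units.val_mul, Units.val_pow_eq_pow_val]
      push_cast
      ring
    have hlev : lev 2 + 1 = 5 := rfl
    simp only [Fin.reduceFinMk, key, hlev]
    exact dvd_add (Dvd.dvd.mul_right (lam_pow_dvd_seven K (by norm_num)) _) (dvd_mul_right _ _)

end

end Fermat.Agent.Kummer.KLBCert7

namespace Fermat.Agent.Kummer

open NumberField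

/-- **Kummer's lemma** for the 7-th cyclotomic field (design B certificate). -/
theorem kummerLemmaHoldsB_7 (K : Type*) [Field K] [NumberField K]
    [IsCyclotomicExtension {7} ℚ K] : KummerLemmaHolds 7 K :=
  kummerLemmaHolds_of_indep (p := 7) (by norm_num) K (KLBCert7.G K)
    (KLBTriangular.indep_of_levels (p := 7) (by norm_num) K
      (IsCyclotomicExtension.zeta_spec 7 ℚ K) (KLBCert7.G K) KLBCert7.lev KLBCert7.cc KLBCert7.dd
      KLBCert7.lev_injective KLBCert7.one_le_lev KLBCert7.lev_add_one_le KLBCert7.not_dvd_cc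
      KLBCert7.not_dvd_dd (KLBCert7.hG K))

end Fermat.Agent.Kummer
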