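/-
Team KUMMER, design B (owner: helper13).
Abstract counting lemma: a commutative group generated by a finite family, and a family of at
least the same size that is independent modulo `p`-th powers, has every element equal to a
product of powers of the second family times a `p`-th power.
-/
import Mathlib

set_option autoImplicit false
namespace Fermat.Agent.Kummer.KLBCounting

open scoped BigOperators

section Counting

/-- The commutative group `G` modulo `p`-th powers, written additively. -/
abbrev ModPow (G : Type*) [CommGroup G] (p : ℕ) : Type _ :=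
  Additive G ⧸ (nsmulAddMonoidHom (α := Additive G) p).range

theorem ModPow.nsmul_eq_zero {G : Type*} [CommGroup G] (p : ℕ) (x : ModPow G p) : p • x = 0 := by
  induction x using QuotientAddGroup.induction_on with
  | H a =>
    rw [← QuotientAddGroup.mk_nsmul, QuotientAddGroup.eq_zero_iff]
    exact ⟨a, rfl⟩

noncomputable instance ModPow.instModule (G : Type*) [CommGroup G] (p : ℕ) :
    Module (ZMod p) (ModPow G p) :=
  AddCommGroup.zmodModule (ModPow.nsmul_eq_zero p)

/-- The class of an element modulo `p`-th powers. -/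
def ModPow.cls {G : Type*} [CommGroup G] (p : ℕ) (x : G) : ModPow G p :=
  QuotientAddGroup.mk (Additive.ofMul x)

theorem ModPow.cls_prod {G : Type*} [CommGroup G] (p : ℕ) {α : Type*} [Fintype α]
    (g : α → G) (e : α → ℤ) :
    ModPow.cls p (∏ i, g i ^ e i) = ∑ i, ((e i : ZMod p)) • ModPow.cls p (g i) := by
  have h1 : ModPow.cls p (∏ i, g i ^ e i) = ∑ i, e i • ModPow.cls p (g i) := by
    show (QuotientAddGroup.mk' _) (Additive.ofMul (∏ i, g i ^ e i)) = _
    rw [ofMul_prod, map_sum]
    refine Finset.sum_congr rfl fun i _ => ?_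
    rw [ofMul_zpow, map_zsmul]
    rfl
  rw [h1]
  refine Finset.sum_congr rfl fun i _ => ?_
  rw [Int.cast_smul_eq_zsmul]

theorem ModPow.cls_eq_zero {G : Type*} [CommGroup G] (p : ℕ) (x : G) :
    ModPow.cls p x = 0 ↔ ∃ y : G, x = y ^ p := by
  unfold ModPow.cls
  rw [QuotientAddGroup.eq_zero_iff]
  constructor
  · rintro ⟨a, ha⟩
    refine ⟨Additive.toMul a, ?_⟩
    have := congrArg Additive.toMul ha
    rw [nsmulAddMonoidHom_apply, toMul_nsmul] at this
    simpa using this.symm
  · rintro ⟨y, rfl⟩
    exact ⟨Additive.ofMul y, rfl⟩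

theorem ModPow.cls_div {G : Type*} [CommGroup G] (p : ℕ) (x y : G) :
    ModPow.cls p (x / y) = ModPow.cls p x - ModPow.cls p y := by
  show (QuotientAddGroup.mk' _) (Additive.ofMul (x / y)) = _
  rw [ofMul_div, map_sub]
  rfl

/-- Abstract counting lemma: if a commutative group `G` is generated by a finite family `w`
and `v` is a family (at least as large) that is independent modulo `p`-th powers, then every
element of `G` is a product of powers of the `v j` times a `p`-th power. -/
theorem exists_eq_prod_zpow_mul_pow_of_indep {G : Type*} [CommGroup G] {p : ℕ} [Fact p.Prime]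
    {ι κ : Type*} [Fintype ι] [Fintype κ] (w : ι → G)
    (hgen : ∀ x : G, ∃ e : ι → ℤ, x = ∏ i, w i ^ e i)
    (v : κ → G) (hcard : Fintype.card ι ≤ Fintype.card κ)
    (hind : ∀ f : κ → ℤ, (∃ y : G, ∏ j, v j ^ f j = y ^ p) → ∀ j, (p : ℤ) ∣ f j)
    (u : G) : ∃ (f : κ → ℤ) (y : G), u = (∏ j, v j ^ f j) * y ^ p := by
  classical
  -- spanning family
  have hspan : Submodule.span (ZMod p) (Set.range fun i => ModPow.cls p (w i)) = ⊤ := by
    rw [Submodule.eq_top_iff']
    intro x
    induction x using QuotientAddGroup.induction_on with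
    | H a =>
      obtain ⟨e, he⟩ := hgen (Additive.toMul a)
      have : (QuotientAddGroup.mk a : ModPow G p) = ModPow.cls p (Additive.toMul a) := rfl
      rw [this, he, ModPow.cls_prod]
      exact Submodule.sum_mem _ fun i _ =>
        Submodule.smul_mem _ _ (Submodule.subset_span ⟨i, rfl⟩)
  have hfinite : Module.Finite (ZMod p) (ModPow G p) :=
    ⟨by rw [← hspan]; exact Submodule.fg_span (Set.finite_range _)⟩
  have hfin : Module.finrank (ZMod p) (ModPow G p) ≤ Fintype.card ι := by
    have := finrank_range_le_card (R := ZMod p) (fun i => ModPow.cls p (w i))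
    rw [Set.finrank, hspan] at this
    simpa using this
  -- independence
  have hli : LinearIndependent (ZMod p) (fun j => ModPow.cls p (v j)) := by
    rw [Fintype.linearIndependent_iff]
    intro g hg j
    have hg' : ModPow.cls p (∏ j, v j ^ ((g j).cast : ℤ)) = 0 := by
      rw [ModPow.cls_prod]
      simpa using hg
    obtain ⟨y, hy⟩ := (ModPow.cls_eq_zero p _).mp hg'
    have := hind _ ⟨y, hy⟩ j
    rw [← ZMod.intCast_zmod_eq_zero_iff_dvd] at this
    simpa using this
  have hcard' : Fintype.card κ = Module.finrank (ZMod p) (ModPow G p) :=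
    le_antisymm hli.fintype_card_le_finrank (hfin.trans hcard)
  have htop := hli.span_eq_top_of_card_eq_finrank' hcard'
  have hu : ModPow.cls p u ∈ Submodule.span (ZMod p) (Set.range fun j => ModPow.cls p (v j)) := by
    rw [htop]; trivial
  obtain ⟨c, hc⟩ := (Submodule.mem_span_range_iff_exists_fun (ZMod p)).mp hu
  refine ⟨fun j => ((c j).cast : ℤ), ?_⟩
  have h0 : ModPow.cls p (u / ∏ j, v j ^ ((c j).cast : ℤ)) = 0 := by
    rw [ModPow.cls_div, ModPow.cls_prod, ← hc, sub_eq_zero]
    simp
  obtain ⟨y, hy⟩ := (ModPow.cls_eq_zero p _).mp h0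
  exact ⟨y, by rw [← hy]; simp⟩

end Counting
end Fermat.Agent.Kummer.KLBCounting
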