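/-
Team KUMMER, design B hedge (owner: helper61).
Triangular criterion: units whose leading terms sit at pairwise distinct `λ`-adic levels
(`λ = ζ - 1`) are independent modulo units congruent to a rational integer modulo `p`.
-/
import Mathlib
import Fermat.Agent.Kummer.CaseIIB.Lemmas

set_option autoImplicit false

namespace Fermat.Agent.Kummer.KLBTriangularB

open NumberField Finset

/-- In a commutative ring, if `t * t = 0` then `(c (1 + d t)) ^ r = c ^ r (1 + r d t)`. -/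
theorem pow_one_add_mul {R : Type*} [CommRing R] (c d t : R) (ht : t * t = 0) (r : ℕ) :
    (c * (1 + d * t)) ^ r = c ^ r * (1 + r * d * t) := by
  induction r with
  | zero => simp
  | succ r ih =>
    rw [pow_succ, ih]
    push_cast
    linear_combination (c ^ r * c * r * d * d) * ht

theorem indep_of_levels {p : ℕ} [Fact p.Prime] (hp2 : p ≠ 2) (K : Type*) [Field K]
    [NumberField K] [IsCyclotomicExtension {p} ℚ K] {ζ : K} (hζ : IsPrimitiveRoot ζ p)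
    {n : ℕ} (G : Fin n → (𝓞 K)ˣ) (lev : Fin n → ℕ) (c d : Fin n → ℤ)
    (hinj : Function.Injective lev) (h1 : ∀ j, 1 ≤ lev j) (h2 : ∀ j, lev j + 1 ≤ p - 1)
    (hc : ∀ j, ¬ (p : ℤ) ∣ c j) (hd : ∀ j, ¬ (p : ℤ) ∣ d j)
    (hG : ∀ j, (hζ.toInteger - 1) ^ (lev j + 1) ∣
      ((G j : 𝓞 K) - c j * (1 + d j * (hζ.toInteger - 1) ^ (lev j)))) :
    ∀ e : Fin n → ℤ,
      (∃ m : ℤ, (p : 𝓞 K) ∣ ((∏ i, G i ^ e i : (𝓞 K)ˣ) : 𝓞 K) - m) → ∀ i, (p : ℤ) ∣ e i := by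
  classical
  intro e ⟨m, hm⟩
  by_contra hcon
  simp only [not_forall] at hcon
  have hpp : Nat.Prime p := Fact.out
  have hpZ : Prime (p : ℤ) := Nat.prime_iff_prime_int.mp hpp
  have hp0 : (p : ℤ) ≠ 0 := by exact_mod_cast hpp.ne_zero
  -- an index of minimal level among those with `p ∤ e i`
  obtain ⟨i₀, hi₀, hmin⟩ : ∃ i₀, ¬ (p : ℤ) ∣ e i₀ ∧ ∀ j, ¬ (p : ℤ) ∣ e j → lev i₀ ≤ lev j := by
    obtain ⟨i, hi⟩ := hcon
    have hs : (Finset.univ.filter (fun i => ¬ (p : ℤ) ∣ e i)).Nonempty :=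
      ⟨i, Finset.mem_filter.mpr ⟨Finset.mem_univ _, hi⟩⟩
    obtain ⟨i₀, hi₀s, hmin⟩ := Finset.exists_min_image _ lev hs
    exact ⟨i₀, (Finset.mem_filter.mp hi₀s).2,
      fun j hj => hmin j (Finset.mem_filter.mpr ⟨Finset.mem_univ _, hj⟩)⟩
  set π : 𝓞 K := hζ.toInteger - 1 with hπ_def
  have hπ : Prime π := CaseIIB.pi_prime hζ
  set ℓ : ℕ := lev i₀ with hℓ_def
  have hℓ1 : 1 ≤ ℓ := h1 i₀
  have hℓ2 : ℓ + 1 ≤ p - 1 := h2 i₀
  -- exponents: `e i = p * q i + r i`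
  set q : Fin n → ℤ := fun i => e i / p with hq_def
  set r : Fin n → ℕ := fun i => (e i % p).toNat with hr_def
  have hr : ∀ i, (r i : ℤ) = e i % p := fun i =>
    Int.toNat_of_nonneg (Int.emod_nonneg _ hp0)
  have her : ∀ i, e i = q i * p + r i := fun i => by
    rw [hr i, hq_def]; exact (Int.ediv_mul_add_emod (e i) p).symm
  have hr0 : ∀ i, r i ≠ 0 → ¬ (p : ℤ) ∣ e i := by
    intro i hri hdvd
    apply hri
    have : (r i : ℤ) = 0 := by rw [hr i]; exact Int.emod_eq_zero_of_dvd hdvd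
    exact_mod_cast this
  have hr₀ : ¬ (p : ℤ) ∣ (r i₀ : ℤ) := by
    intro hdvd
    apply hi₀
    rw [her i₀]
    exact dvd_add (Dvd.dvd.mul_left (dvd_refl _) _) hdvd
  -- the unit `U` collecting the `p`-th power parts
  set U : (𝓞 K)ˣ := ∏ i, G i ^ q i with hU_def
  have hprodU : (∏ i, G i ^ e i : (𝓞 K)ˣ) = U ^ p * ∏ i, G i ^ r i := by
    rw [hU_def, ← Finset.prod_pow, ← Finset.prod_mul_distrib]
    refine Finset.prod_congr rfl (fun i _ => ?_)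
    rw [← zpow_natCast (G i ^ q i) p, ← zpow_mul, ← zpow_natCast (G i) (r i), ← zpow_add]
    congr 1
    exact her i
  obtain ⟨nU, hnU⟩ := CaseIIB.exists_int_pow_sub (p := p) ((U : (𝓞 K)ˣ) : 𝓞 K)
  have hnU' : ¬ (p : ℤ) ∣ nU := by
    intro hdvd
    have h3 : (p : 𝓞 K) ∣ ((U : (𝓞 K)ˣ) : 𝓞 K) ^ p := by
      have h4 : ((U : (𝓞 K)ˣ) : 𝓞 K) ^ p
          = (((U : (𝓞 K)ˣ) : 𝓞 K) ^ p - (nU : 𝓞 K)) + (nU : 𝓞 K) := by ring
      rw [h4]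
      exact dvd_add hnU (CaseIIB.natCast_dvd_intCast hdvd)
    have h5 : π ∣ ((U : (𝓞 K)ˣ) : 𝓞 K) ^ p := dvd_trans (CaseIIB.pi_dvd_p hζ) h3
    exact hπ.not_isUnit (isUnit_of_dvd_unit h5 (U.isUnit.pow p))
  -- work modulo `π ^ (ℓ + 1)`
  set I : Ideal (𝓞 K) := Ideal.span {π ^ (ℓ + 1)} with hI_def
  set φ : 𝓞 K →+* 𝓞 K ⧸ I := Ideal.Quotient.mk I with hφ_def
  have hφ0 : ∀ a : 𝓞 K, φ a = 0 ↔ π ^ (ℓ + 1) ∣ a := fun a => by
    rw [hφ_def, Ideal.Quotient.eq_zero_iff_mem, hI_def, Ideal.mem_span_singleton]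
  have hπpow : π ^ (ℓ + 1) ∣ (p : 𝓞 K) :=
    (pow_dvd_pow π hℓ2).trans (CaseIIB.assoc_pi_pow hζ).dvd
  have hφp : ∀ a : 𝓞 K, (p : 𝓞 K) ∣ a → φ a = 0 := fun a ha => (hφ0 a).mpr (hπpow.trans ha)
  have hφπ : φ π ^ ℓ * φ π ^ ℓ = 0 := by
    rw [← pow_add, ← map_pow, hφ0]
    exact pow_dvd_pow π (by omega)
  -- the factor at `i₀`
  have hG₀ : φ (G i₀ : 𝓞 K) ^ r i₀
      = φ (c i₀ : 𝓞 K) ^ r i₀ * (1 + (r i₀ : 𝓞 K ⧸ I) * φ (d i₀ : 𝓞 K) * φ π ^ ℓ) := by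
    have h3 : φ (G i₀ : 𝓞 K) = φ (c i₀ : 𝓞 K) * (1 + φ (d i₀ : 𝓞 K) * φ π ^ ℓ) := by
      have h4 := (hφ0 _).mpr (hG i₀)
      rw [map_sub, sub_eq_zero] at h4
      rw [h4]
      simp only [map_mul, map_add, map_one, map_pow]
      rfl
    rw [h3]
    exact pow_one_add_mul _ _ _ hφπ _
  -- the other factors
  have hGj : ∀ j ∈ (Finset.univ : Finset (Fin n)).erase i₀,
      φ (G j : 𝓞 K) ^ r j = φ (c j : 𝓞 K) ^ r j := by
    intro j hj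
    have hji : j ≠ i₀ := Finset.ne_of_mem_erase hj
    by_cases hrj : r j = 0
    · rw [hrj, pow_zero, pow_zero]
    · have h3 : ℓ + 1 ≤ lev j := by
        have h4 := hmin j (hr0 j hrj)
        have h5 : lev j ≠ lev i₀ := fun h => hji (hinj h)
        omega
      have h6 : φ (G j : 𝓞 K) = φ (c j : 𝓞 K) := by
        rw [← sub_eq_zero, ← map_sub, hφ0]
        have h7 : (G j : 𝓞 K) - (c j : 𝓞 K)
            = ((G j : 𝓞 K) - c j * (1 + d j * π ^ (lev j))) + c j * d j * π ^ (lev j) := by ring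
        rw [h7]
        exact dvd_add ((pow_dvd_pow π (by omega)).trans (hG j))
          (Dvd.dvd.mul_left (pow_dvd_pow π h3) _)
      rw [h6]
  -- assemble
  have hφprod : φ (((∏ i, G i ^ e i : (𝓞 K)ˣ) : (𝓞 K)ˣ) : 𝓞 K) = φ (m : 𝓞 K) := by
    rw [← sub_eq_zero, ← map_sub]; exact hφp _ hm
  have hexp : (((∏ i, G i ^ e i : (𝓞 K)ˣ) : (𝓞 K)ˣ) : 𝓞 K)
      = ((U : (𝓞 K)ˣ) : 𝓞 K) ^ p * ∏ i, (G i : 𝓞 K) ^ r i := by
    rw [hprodU]; push_cast; rfl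
  have hφU : φ (((U : (𝓞 K)ˣ) : 𝓞 K) ^ p) = φ (nU : 𝓞 K) := by
    rw [← sub_eq_zero, ← map_sub]; exact hφp _ hnU
  set C : ℤ := nU * c i₀ ^ r i₀ * ∏ j ∈ (Finset.univ : Finset (Fin n)).erase i₀, c j ^ r j
    with hC_def
  have key : φ (C : 𝓞 K) * (1 + (r i₀ : 𝓞 K ⧸ I) * φ (d i₀ : 𝓞 K) * φ π ^ ℓ)
      = φ (m : 𝓞 K) := by
    rw [← hφprod, hexp, map_mul, hφU, map_prod,
      ← Finset.mul_prod_erase Finset.univ _ (Finset.mem_univ i₀)]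
    simp only [map_pow]
    rw [hG₀, Finset.prod_congr rfl hGj, hC_def]
    push_cast
    simp only [map_mul, map_pow, map_prod]
    ring
  have key' : π ^ (ℓ + 1) ∣ ((C - m : ℤ) : 𝓞 K) + ((C * r i₀ * d i₀ : ℤ) : 𝓞 K) * π ^ ℓ := by
    rw [← hφ0]
    push_cast
    simp only [map_add, map_sub, map_mul, map_pow, map_natCast]
    linear_combination key
  have h8 : π ∣ ((C - m : ℤ) : 𝓞 K) := by
    have h9 : π ∣ ((C - m : ℤ) : 𝓞 K) + ((C * r i₀ * d i₀ : ℤ) : 𝓞 K) * π ^ ℓ :=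
      (dvd_pow_self π (by omega)).trans key'
    have h10 : π ∣ ((C * r i₀ * d i₀ : ℤ) : 𝓞 K) * π ^ ℓ :=
      Dvd.dvd.mul_left (dvd_pow_self π (by omega)) _
    exact (dvd_add_left h10).mp h9
  have h11 : (p : ℤ) ∣ C - m := (CaseIIB.pi_dvd_intCast_iff hζ _).mp h8
  have h12 : π ^ (ℓ + 1) ∣ ((C - m : ℤ) : 𝓞 K) :=
    hπpow.trans (CaseIIB.natCast_dvd_intCast h11)
  have h13 : π ^ (ℓ + 1) ∣ ((C * r i₀ * d i₀ : ℤ) : 𝓞 K) * π ^ ℓ := (dvd_add_right h12).mp key'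
  have h14 : π ∣ ((C * r i₀ * d i₀ : ℤ) : 𝓞 K) := by
    rw [pow_succ, mul_comm ((C * r i₀ * d i₀ : ℤ) : 𝓞 K) (π ^ ℓ)] at h13
    exact (mul_dvd_mul_iff_left (pow_ne_zero ℓ hπ.ne_zero)).mp h13
  have h15 : (p : ℤ) ∣ C * r i₀ * d i₀ := (CaseIIB.pi_dvd_intCast_iff hζ _).mp h14
  rcases hpZ.dvd_or_dvd h15 with h | h
  · rcases hpZ.dvd_or_dvd h with h | h
    · rw [hC_def] at h
      rcases hpZ.dvd_or_dvd h with h | h
      · rcases hpZ.dvd_or_dvd h with h | h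
        · exact hnU' h
        · exact hc i₀ (hpZ.dvd_of_dvd_pow h)
      · obtain ⟨j, -, hj⟩ := (Prime.dvd_finsetProd_iff hpZ _).mp h
        exact hc j (hpZ.dvd_of_dvd_pow hj)
    · exact hr₀ h
  · exact hd i₀ h

end Fermat.Agent.Kummer.KLBTriangularB
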